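/-
Row S26, block CUBE, leaves GI + CV (subtask 580; helper480).

* `geometricallyIntegral_str` : an abelian variety over an algebraically closed field is
  geometrically integral (`H687.integral` + `S25.H567.geometricallyIntegral_of_isAlgClosed`).
* `exists_transl_mem` : the translates of a nonempty open subset cover the abelian variety:
  for `U ≠ ∅` open and ANY point `a` (closed or not) there is a `K`-point `x` with
  `T_x(a) ∈ U`.  (Take a closed point `b` in the closure of `a` and a closed point `u` of `U`,
  translate `b` to `u`; open sets are stable under generisation.)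

Both are stated on `AbVar K` only (no CUBE interface is imported), so that thin wrappers give
`Cube.GeomIntegral K` and `Cube.Cover K` in either CUBE interface.
-/
import Fermat.Agent.S26.SpecPic
import Fermat.Agent.S26.H687.Integral
import Fermat.Agent.S25.H567.GeomIntegral

set_option autoImplicit false
universe u
open CategoryTheory CategoryTheory.Limits AlgebraicGeometry NeronModelInfra GoodReductionJacobian

namespace Fermat.Agent.S26.H480

noncomputable section

variable {K : Type u} [Field K] [IsAlgClosed K]

omit [IsAlgClosed K] in
/-- An abelian variety is locally noetherian. -/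
theorem isLocallyNoetherian_abVar (X : AbVar K) : IsLocallyNoetherian X.A := by
  have : Smooth X.str := X.bundle.smooth
  exact LocallyOfFiniteType.isLocallyNoetherian X.str

/-- **GI**: an abelian variety over an algebraically closed field is geometrically integral. -/
theorem geometricallyIntegral_str (X : AbVar K) : GeometricallyIntegral X.str := by
  have : IsIntegral X.A := H687.integral K X
  have : IsLocallyNoetherian X.A := isLocallyNoetherian_abVar X
  exact S25.H567.geometricallyIntegral_of_isAlgClosed X.str

omit [IsAlgClosed K] in
/-- `AbVar.transl` is the translation of `H687`. -/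
theorem transl_eq (X : AbVar K) (x : X.Pt) : X.transl x = H687.transl X.law x := rfl

omit [IsAlgClosed K] in
/-- Translations are homeomorphisms: the underlying map of `T_x` is that of an isomorphism. -/
theorem transl_apply (X : AbVar K) (x : X.Pt) (a : X.A) :
    X.transl x a = Scheme.homeoOfIso (H687.translIso X.law x) a := rfl

/-- **CV**: the translates of a nonempty open subset cover `A`. -/
theorem exists_transl_mem (X : AbVar K) (U : X.A.Opens) (hU : (U : Set X.A).Nonempty)
    (a : X.A) : ∃ x : X.Pt, X.transl x a ∈ U := by
  have : Smooth X.str := X.bundle.smooth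
  have : JacobsonSpace X.A := LocallyOfFiniteType.jacobsonSpace X.str
  -- a closed point `u` of `U`
  obtain ⟨u, huU, huc⟩ := nonempty_inter_closedPoints hU U.2.isLocallyClosed
  -- a closed point `b` in the closure of `a`
  obtain ⟨b, hba, hbc⟩ := nonempty_inter_closedPoints
    (Z := closure {a}) ⟨a, subset_closure rfl⟩ isClosed_closure.isLocallyClosed
  let pb := (pointEquivClosedPoint X.str).symm ⟨b, hbc⟩
  let pu := (pointEquivClosedPoint X.str).symm ⟨u, huc⟩
  have hpb : pb.1 (IsLocalRing.closedPoint K) = b :=
    congrArg Subtype.val ((pointEquivClosedPoint X.str).apply_symm_apply ⟨b, hbc⟩)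
  have hpu : pu.1 (IsLocalRing.closedPoint K) = u :=
    congrArg Subtype.val ((pointEquivClosedPoint X.str).apply_symm_apply ⟨u, huc⟩)
  obtain ⟨x, hx⟩ := H687.exists_translIso X.law pb pu
  refine ⟨x, ?_⟩
  have hbu : X.transl x b = u := by
    rw [← hpb, ← hpu, ← hx]
    rfl
  -- `a` specialises to `b`, hence `T_x a` specialises to `T_x b = u ∈ U`
  have hspec : a ⤳ b := specializes_iff_mem_closure.2 hba
  have hspec' : X.transl x a ⤳ X.transl x b := hspec.map (X.transl x).continuous
  rw [hbu] at hspec'
  exact hspec'.mem_open U.2 huU

end

end Fermat.Agent.S26.H480
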